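import Mathlib

/-!
# UPB-geo (CELL AV), algebra: coordinates on a tensor product of finite algebras over polynomial rings

If `aeval a : K[x_σ] → A` and `aeval t : K[y_ι] → R` are finite and injective, so is
`aeval (a ⊗ 1, 1 ⊗ t) : K[x_σ, y_ι] → A ⊗[K] R`.  Also: the one-variable dictionary between
`Module.AEval` and `aeval`.
-/

set_option autoImplicit false
set_option linter.style.haveILetI false

namespace Fermat.Agent.AV.Box14

open TensorProduct MvPolynomial

variable {K : Type*} [Field K]

section Tensor

variable {σ ι : Type*} {A R : Type*} [CommRing A] [Algebra K A] [CommRing R] [Algebra K R]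

/-- The coordinates on the tensor product. -/
noncomputable def sumCoord (a : σ → A) (t : ι → R) : σ ⊕ ι → A ⊗[K] R :=
  Sum.elim (fun i => a i ⊗ₜ[K] (1 : R)) (fun j => (1 : A) ⊗ₜ[K] t j)

theorem aeval_sumCoord_comp (a : σ → A) (t : ι → R) :
    (aeval (sumCoord (K := K) a t)).comp (tensorEquivSum K σ ι K).toAlgHom =
      Algebra.TensorProduct.map (aeval a) (aeval t) := by
  apply Algebra.TensorProduct.ext
  · apply MvPolynomial.algHom_ext
    intro i
    simp [sumCoord]
  · apply MvPolynomial.algHom_ext
    intro j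
    simp [sumCoord]

theorem aeval_sumCoord_eq (a : σ → A) (t : ι → R) :
    (aeval (sumCoord (K := K) a t) : MvPolynomial (σ ⊕ ι) K →ₐ[K] A ⊗[K] R) =
      (Algebra.TensorProduct.map (aeval a) (aeval t)).comp
        (tensorEquivSum K σ ι K).symm.toAlgHom := by
  rw [← aeval_sumCoord_comp]
  ext x
  simp

theorem finite_aeval_sumCoord (a : σ → A) (t : ι → R)
    (ha : (aeval a : MvPolynomial σ K →ₐ[K] A).Finite)
    (ht : (aeval t : MvPolynomial ι K →ₐ[K] R).Finite) :
    (aeval (sumCoord (K := K) a t) : MvPolynomial (σ ⊕ ι) K →ₐ[K] A ⊗[K] R).Finite := by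
  rw [aeval_sumCoord_eq]
  exact (RingHom.Finite.tensorProductMap ha ht).comp
    (tensorEquivSum K σ ι K).symm.toRingEquiv.finite

theorem injective_aeval_sumCoord (a : σ → A) (t : ι → R)
    (ha : Function.Injective (aeval a : MvPolynomial σ K →ₐ[K] A))
    (ht : Function.Injective (aeval t : MvPolynomial ι K →ₐ[K] R)) :
    Function.Injective (aeval (sumCoord (K := K) a t) :
      MvPolynomial (σ ⊕ ι) K →ₐ[K] A ⊗[K] R) := by
  rw [aeval_sumCoord_eq]
  have h1 : Function.Injective (Algebra.TensorProduct.map (aeval a : MvPolynomial σ K →ₐ[K] A)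
      (aeval t : MvPolynomial ι K →ₐ[K] R)) := by
    exact TensorProduct.map_injective_of_flat_flat
      (aeval a : MvPolynomial σ K →ₐ[K] A).toLinearMap
      (aeval t : MvPolynomial ι K →ₐ[K] R).toLinearMap ha ht
  exact h1.comp (tensorEquivSum K σ ι K).symm.injective

/-- The same for any `K`-algebra `P` which is a tensor product of `A` and `R` (`productMap`
bijective). -/
theorem aeval_sumElim_eq {P : Type*} [CommRing P] [Algebra K P] (iA : A →ₐ[K] P) (iR : R →ₐ[K] P)
    (a : σ → A) (t : ι → R) :
    (aeval (Sum.elim (fun i => iA (a i)) (fun j => iR (t j))) :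
      MvPolynomial (σ ⊕ ι) K →ₐ[K] P) =
      (Algebra.TensorProduct.productMap iA iR).comp (aeval (sumCoord (K := K) a t)) := by
  apply MvPolynomial.algHom_ext
  intro x
  rcases x with i | j <;> simp [sumCoord]

theorem finite_aeval_sumElim {P : Type*} [CommRing P] [Algebra K P] (iA : A →ₐ[K] P)
    (iR : R →ₐ[K] P) (hbij : Function.Bijective (Algebra.TensorProduct.productMap iA iR))
    (a : σ → A) (t : ι → R)
    (ha : (aeval a : MvPolynomial σ K →ₐ[K] A).Finite)
    (ht : (aeval t : MvPolynomial ι K →ₐ[K] R).Finite) :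
    (aeval (Sum.elim (fun i => iA (a i)) (fun j => iR (t j))) :
      MvPolynomial (σ ⊕ ι) K →ₐ[K] P).Finite := by
  rw [aeval_sumElim_eq]
  exact RingHom.Finite.comp (RingHom.Finite.of_surjective _ hbij.2) (finite_aeval_sumCoord a t ha ht)

theorem injective_aeval_sumElim {P : Type*} [CommRing P] [Algebra K P] (iA : A →ₐ[K] P)
    (iR : R →ₐ[K] P) (hbij : Function.Bijective (Algebra.TensorProduct.productMap iA iR))
    (a : σ → A) (t : ι → R)
    (ha : Function.Injective (aeval a : MvPolynomial σ K →ₐ[K] A))
    (ht : Function.Injective (aeval t : MvPolynomial ι K →ₐ[K] R)) :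
    Function.Injective (aeval (Sum.elim (fun i => iA (a i)) (fun j => iR (t j))) :
      MvPolynomial (σ ⊕ ι) K →ₐ[K] P) := by
  rw [aeval_sumElim_eq]
  exact hbij.1.comp (injective_aeval_sumCoord a t ha ht)

end Tensor

section OneVar

variable {A : Type*} [CommRing A] [Algebra K A] (t : A)

/-- `aeval` in one `MvPolynomial` variable is `Polynomial.aeval` composed with `pUnitAlgEquiv`. -/
theorem aeval_unit_eq :
    (aeval (fun _ : PUnit.{1} => t) : MvPolynomial PUnit.{1} K →ₐ[K] A) =
      (Polynomial.aeval t).comp (uniqueAlgEquiv K PUnit.{1}).toAlgHom := by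
  apply MvPolynomial.algHom_ext
  intro i
  simp

/-- The `K[X]`-linear identification of `Module.AEval K A t` with `A` (as a module over `K[X]` via
`Polynomial.aeval t`). -/
noncomputable def aevalLinearEquiv :
    letI := (Polynomial.aeval t : Polynomial K →ₐ[K] A).toRingHom.toAlgebra
    Module.AEval K A t ≃ₗ[Polynomial K] A :=
  letI := (Polynomial.aeval t : Polynomial K →ₐ[K] A).toRingHom.toAlgebra
  { (Module.AEval.of K A t).symm with
    map_smul' := fun p m => by
      simp only [AddHom.toFun_eq_coe, LinearMap.coe_toAddHom, LinearEquiv.coe_coe,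
        RingHom.id_apply]
      rw [Module.AEval.of_symm_smul]
      rfl }

theorem finite_polynomial_aeval [Module.Finite (Polynomial K) (Module.AEval K A t)] :
    (Polynomial.aeval t : Polynomial K →ₐ[K] A).Finite := by
  letI := (Polynomial.aeval t : Polynomial K →ₐ[K] A).toRingHom.toAlgebra
  exact Module.Finite.equiv (aevalLinearEquiv (K := K) t)

theorem finite_aeval_unit [Module.Finite (Polynomial K) (Module.AEval K A t)] :
    (aeval (fun _ : PUnit.{1} => t) : MvPolynomial PUnit.{1} K →ₐ[K] A).Finite := by
  rw [aeval_unit_eq]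
  exact RingHom.Finite.comp (finite_polynomial_aeval t) (uniqueAlgEquiv K PUnit.{1}).toRingEquiv.finite

theorem injective_polynomial_aeval [Nontrivial A]
    [Module.Free (Polynomial K) (Module.AEval K A t)] :
    Function.Injective (Polynomial.aeval t : Polynomial K →ₐ[K] A) := by
  haveI : Nontrivial (Module.AEval K A t) := (Module.AEval.of K A t).symm.toEquiv.nontrivial
  haveI : FaithfulSMul (Polynomial K) (Module.AEval K A t) := inferInstance
  rw [injective_iff_map_eq_zero]
  intro p hp
  apply FaithfulSMul.eq_of_smul_eq_smul (α := Module.AEval K A t)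
  intro m
  rw [zero_smul]
  obtain ⟨x, rfl⟩ := (Module.AEval.of K A t).surjective m
  rw [← Module.AEval.of_aeval_smul, hp, zero_smul, map_zero]

theorem injective_aeval_unit [Nontrivial A]
    [Module.Free (Polynomial K) (Module.AEval K A t)] :
    Function.Injective (aeval (fun _ : PUnit.{1} => t) : MvPolynomial PUnit.{1} K →ₐ[K] A) := by
  rw [aeval_unit_eq]
  exact (injective_polynomial_aeval t).comp (uniqueAlgEquiv K PUnit.{1}).injective

end OneVar

end Fermat.Agent.AV.Box14
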