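import Fermat.Agent.AV.Box14.FF
import Fermat.Agent.AV.Upb43.Bound

/-!
# UPB-geo (CELL AV): polynomial growth of spaces of functions on a scheme with a box chart system

Instantiation of helper43's `Upb43.exists_finrank_le_mul_pow` for an integral `K`-scheme with a
`BoxSys`.
-/

set_option autoImplicit false
set_option linter.style.haveILetI false
set_option linter.unusedSectionVars false

open CategoryTheory CategoryTheory.Limits AlgebraicGeometry TopologicalSpace Opposite
open Fermat.Agent.Jac MvPolynomial
open scoped WithZero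

universe u

noncomputable section

namespace Fermat.Agent.AV.Box14

variable {K : Type u} [Field K] {V : Scheme.{u}} [IsIntegral V]
  {v : V ⟶ Spec (CommRingCat.of K)} {σ : Type} (S : BoxSys v σ)

namespace BoxSys

theorem nonempty_V0 : Nonempty S.V0 := by
  by_contra h
  have hbot : S.V0 = ⊥ := by
    ext x
    simp only [Opens.coe_bot, Set.mem_empty_iff_false, iff_false]
    exact fun hx => h ⟨⟨x, hx⟩⟩
  letI := sectionsAlgebra v S.V0
  have hsub : Subsingleton Γ(V, S.V0) := by rw [hbot]; infer_instance
  have := S.inj0 (hsub.elim (aeval S.t 0) (aeval S.t 1))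
  exact zero_ne_one this

theorem nonempty_Vinf (i : σ) : Nonempty (S.Vinf i) := by
  by_contra h
  have hbot : S.Vinf i = ⊥ := by
    ext x
    simp only [Opens.coe_bot, Set.mem_empty_iff_false, iff_false]
    exact fun hx => h ⟨⟨x, hx⟩⟩
  letI := sectionsAlgebra v (S.Vinf i)
  have hsub : Subsingleton Γ(V, S.Vinf i) := by rw [hbot]; infer_instance
  have := S.injinf i (hsub.elim (aeval (S.tinf i) 0) (aeval (S.tinf i) 1))
  exact zero_ne_one this

/-- The coordinate functions in the function field. -/
def τ (j : σ) : V.functionField :=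
  haveI := S.nonempty_V0
  V.germToFunctionField S.V0 (S.t j)

/-- The coordinate functions of the `i`-th chart at infinity, in the function field. -/
def τinf (i j : σ) : V.functionField :=
  haveI := S.nonempty_Vinf i
  V.germToFunctionField (S.Vinf i) (S.tinf i j)

theorem τinf_of_ne {i j : σ} (h : j ≠ i) : S.τinf i j = S.τ j := by
  haveI := S.nonempty_V0
  haveI := S.nonempty_Vinf i
  haveI := nonempty_inf S.V0 (S.Vinf i)
  unfold τ τinf
  rw [← germToFunctionField_res (inf_le_left : S.V0 ⊓ S.Vinf i ≤ S.V0),
    ← germToFunctionField_res (inf_le_right : S.V0 ⊓ S.Vinf i ≤ S.Vinf i), S.compat_ne i j h]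

theorem τ_mul_τinf (i : σ) : S.τ i * S.τinf i i = 1 := by
  haveI := S.nonempty_V0
  haveI := S.nonempty_Vinf i
  haveI := nonempty_inf S.V0 (S.Vinf i)
  unfold τ τinf
  rw [← germToFunctionField_res (inf_le_left : S.V0 ⊓ S.Vinf i ≤ S.V0),
    ← germToFunctionField_res (inf_le_right : S.V0 ⊓ S.Vinf i ≤ S.Vinf i), ← map_mul,
    S.compat_eq i, map_one]

end BoxSys

/-! ### The valuation ring of `deg_{t_i}` contains `K[t_j (j ≠ i), 1/t_i]` -/

section DegVal

open Fermat.Agent.AV.Upb43

variable (K) (σ) [DecidableEq σ]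

/-- The coordinates of the chart at infinity in the `i`-th direction, in `K(t)`. -/
def uinf (i : σ) : σ → FractionRing (MvPolynomial σ K) :=
  Function.update (fun j => algebraMap (MvPolynomial σ K) (FractionRing (MvPolynomial σ K)) (X j)) i
    (algebraMap (MvPolynomial σ K) (FractionRing (MvPolynomial σ K)) (X i))⁻¹

theorem degVal_uinf_le_one (i j : σ) :
    degVal K (FractionRing (MvPolynomial σ K)) i (uinf K σ i j) ≤ 1 := by
  by_cases h : j = i
  · subst h
    rw [uinf, Function.update_self, map_inv₀, degVal_algebraMap,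
      degValPoly_apply_of_ne_zero j (X_ne_zero j), degreeOf_X, if_pos rfl]
    rw [← WithZero.exp_neg, ← WithZero.exp_zero, WithZero.exp_le_exp]
    simp
  · rw [uinf, Function.update_of_ne h, degVal_algebraMap,
      degValPoly_apply_of_ne_zero i (X_ne_zero j), degreeOf_X, if_neg (fun h' => h h'.symm)]
    simp

theorem degVal_algebraMap_C_le_one (i : σ) (a : K) :
    degVal K (FractionRing (MvPolynomial σ K)) i
      (algebraMap (MvPolynomial σ K) (FractionRing (MvPolynomial σ K)) (C a)) ≤ 1 := by
  rw [degVal_algebraMap]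
  by_cases ha : a = 0
  · simp [ha]
  · rw [degValPoly_apply_of_ne_zero i (by simpa using ha), degreeOf_C]
    simp

theorem degVal_aeval_uinf_le_one (i : σ) (q : MvPolynomial σ K) :
    degVal K (FractionRing (MvPolynomial σ K)) i (aeval (uinf K σ i) q) ≤ 1 := by
  induction q using MvPolynomial.induction_on with
  | C a =>
    rw [aeval_C]
    have : algebraMap K (FractionRing (MvPolynomial σ K)) a =
        algebraMap (MvPolynomial σ K) (FractionRing (MvPolynomial σ K)) (C a) := by
      rw [IsScalarTower.algebraMap_apply K (MvPolynomial σ K) (FractionRing (MvPolynomial σ K))]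
      rfl
    rw [this]
    exact degVal_algebraMap_C_le_one K σ i a
  | add p q hp hq =>
    rw [map_add]
    exact (Valuation.map_add_le_max' _ _ _).trans (max_le hp hq)
  | mul_X p j hp =>
    rw [map_mul, aeval_X, Valuation.map_mul]
    exact mul_le_one' hp (degVal_uinf_le_one K σ i j)

end DegVal

/-! ### Uniform numbers of generators -/

theorem exists_uniform_generators (R M : Type*) [CommRing R] [AddCommGroup M] [Module R M]
    [Module.Finite R M] :
    ∃ n0 : ℕ, ∀ N, n0 ≤ N → ∃ s : Fin N → M, ∀ z : M, ∃ q : Fin N → R, z = ∑ l, q l • s l := by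
  classical
  obtain ⟨n0, f, hf⟩ := Module.Finite.exists_fin' R M
  refine ⟨n0, fun N hN => ?_⟩
  let g : (Fin N → R) →ₗ[R] (Fin n0 → R) := LinearMap.funLeft R R (Fin.castLE hN)
  have hg : Function.Surjective g :=
    LinearMap.funLeft_surjective_of_injective R R _ (Fin.castLE_injective hN)
  let F := f.comp g
  have hF : Function.Surjective F := hf.comp hg
  refine ⟨fun l => F (fun j => if l = j then 1 else 0), fun z => ?_⟩
  obtain ⟨q, rfl⟩ := hF z
  exact ⟨q, LinearMap.pi_apply_eq_sum_univ F q⟩

/-! ### The main bound -/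

section Main

open Fermat.Agent.AV.Upb43

namespace BoxSys

/-- Rational functions regular on the finite chart. -/
def regular0 : Set V.functionField :=
  haveI := S.nonempty_V0
  Set.range (V.germToFunctionField S.V0)

/-- Rational functions regular on the `i`-th chart at infinity. -/
def regularInf (i : σ) : Set V.functionField :=
  haveI := S.nonempty_Vinf i
  Set.range (V.germToFunctionField (S.Vinf i))

/-- `aeval` of the coordinate functions in the function field factors through the sections over
the finite chart. -/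
theorem aeval_τ :
    letI := ffAlgebra v
    letI := sectionsAlgebra v S.V0
    haveI := S.nonempty_V0
    (aeval S.τ : MvPolynomial σ K →ₐ[K] V.functionField) =
      (germAlgHom v S.V0).comp (aeval S.t) := by
  letI := ffAlgebra v
  letI := sectionsAlgebra v S.V0
  haveI := S.nonempty_V0
  apply MvPolynomial.algHom_ext
  intro j
  rw [aeval_X, AlgHom.comp_apply, aeval_X]
  rfl

theorem aeval_τinf (i : σ) :
    letI := ffAlgebra v
    letI := sectionsAlgebra v (S.Vinf i)
    haveI := S.nonempty_Vinf i
    (aeval (S.τinf i) : MvPolynomial σ K →ₐ[K] V.functionField) =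
      (germAlgHom v (S.Vinf i)).comp (aeval (S.tinf i)) := by
  letI := ffAlgebra v
  letI := sectionsAlgebra v (S.Vinf i)
  haveI := S.nonempty_Vinf i
  apply MvPolynomial.algHom_ext
  intro j
  rw [aeval_X, AlgHom.comp_apply, aeval_X]
  rfl

theorem aeval_τ_injective :
    letI := ffAlgebra v
    Function.Injective (aeval S.τ : MvPolynomial σ K →ₐ[K] V.functionField) := by
  letI := ffAlgebra v
  letI := sectionsAlgebra v S.V0
  haveI := S.nonempty_V0
  rw [S.aeval_τ]
  exact (germAlgHom_injective v S.V0).comp S.inj0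

variable [Fintype σ]

set_option maxHeartbeats 1600000 in
/-- **UPB-geo, G1.** On an integral `K`-scheme with a box chart system in `N = card σ` coordinates,
spaces of rational functions which are regular on the finite chart and, for each direction `i`, of
the form `γ i ^ m * (regular on the i-th chart at infinity)` have dimension `O(m ^ N)`. -/
theorem exists_growth_bound (γ : σ → V.functionField) :
    letI := ffAlgebra v
    ∃ C : ℕ, ∀ (m : ℕ) (W : Submodule K V.functionField), 1 ≤ m →
      (∀ x ∈ W, x ∈ S.regular0 ∧ ∀ i, ∃ y ∈ S.regularInf i, x = γ i ^ m * y) →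
      Module.Finite K W ∧ Module.finrank K W ≤ C * m ^ Fintype.card σ := by
  classical
  letI := ffAlgebra v
  letI := sectionsAlgebra v S.V0
  haveI := S.nonempty_V0
  -- the polynomial ring and its fraction field
  let P := MvPolynomial σ K
  let E := FractionRing P
  let F := V.functionField
  let φ : P →ₐ[K] F := aeval S.τ
  have hφinj : Function.Injective φ := S.aeval_τ_injective
  letI algEF : Algebra E F := (IsFractionRing.lift (g := φ.toRingHom) hφinj).toAlgebra
  have hEF : ∀ p : P, algebraMap E F (algebraMap P E p) = φ p := fun p =>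
    IsFractionRing.lift_algebraMap (g := φ.toRingHom) hφinj p
  haveI : IsScalarTower K E F := by
    refine IsScalarTower.of_algebraMap_eq fun a => ?_
    rw [IsScalarTower.algebraMap_apply K P E, hEF]
    exact (φ.commutes a).symm
  -- finiteness of `F` over `E`
  letI algPΓ : Algebra P Γ(V, S.V0) := (aeval S.t : P →ₐ[K] Γ(V, S.V0)).toRingHom.toAlgebra
  haveI : FaithfulSMul P Γ(V, S.V0) := (faithfulSMul_iff_algebraMap_injective _ _).mpr S.inj0
  haveI finΓ : Module.Finite P Γ(V, S.V0) := S.fin0
  letI algPF : Algebra P F := φ.toRingHom.toAlgebra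
  haveI : IsFractionRing Γ(V, S.V0) F := functionField_isFractionRing_of_isAffineOpen V S.V0 S.aff0
  haveI : IsScalarTower P E F := IsScalarTower.of_algebraMap_eq fun p => (hEF p).symm
  haveI : IsScalarTower P Γ(V, S.V0) F := by
    refine IsScalarTower.of_algebraMap_eq fun p => ?_
    change φ p = V.germToFunctionField S.V0 (aeval S.t p)
    rw [show φ = _ from S.aeval_τ]
    rfl
  haveI : FiniteDimensional E F := Cnt14.finite_fractionField (B := P) (B' := Γ(V, S.V0))
  -- images of the coordinates at infinity
  have huinf : ∀ i j, algebraMap E F (uinf K σ i j) = S.τinf i j := by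
    intro i j
    by_cases h : j = i
    · subst h
      rw [uinf, Function.update_self, map_inv₀, hEF]
      change (aeval S.τ (X j))⁻¹ = _
      rw [aeval_X]
      exact (eq_inv_of_mul_eq_one_right (S.τ_mul_τinf j)).symm
    · rw [uinf, Function.update_of_ne h, hEF]
      change aeval S.τ (X j) = _
      rw [aeval_X, S.τinf_of_ne h]
  have haeval_inf : ∀ i (q : P), algebraMap E F (aeval (uinf K σ i) q) = aeval (S.τinf i) q := by
    intro i q
    have : (IsScalarTower.toAlgHom K E F).comp (aeval (uinf K σ i)) = aeval (S.τinf i) := by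
      apply MvPolynomial.algHom_ext
      intro j
      rw [AlgHom.comp_apply, aeval_X, aeval_X]
      exact huinf i j
    exact DFunLike.congr_fun this q
  -- uniform numbers of generators
  obtain ⟨n0, hn0⟩ := exists_uniform_generators P Γ(V, S.V0)
  have hgen : ∀ i : σ, ∃ n1 : ℕ, ∀ N, n1 ≤ N → ∃ s : Fin N → Γ(V, S.Vinf i),
      ∀ z : Γ(V, S.Vinf i), ∃ q : Fin N → P,
        z = ∑ l, (letI := sectionsAlgebra v (S.Vinf i); aeval (S.tinf i) (q l)) * s l := by
    intro i
    letI := sectionsAlgebra v (S.Vinf i)
    letI : Algebra P Γ(V, S.Vinf i) :=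
      (aeval (S.tinf i) : P →ₐ[K] Γ(V, S.Vinf i)).toRingHom.toAlgebra
    haveI : Module.Finite P Γ(V, S.Vinf i) := S.fininf i
    obtain ⟨n1, hn1⟩ := exists_uniform_generators P Γ(V, S.Vinf i)
    refine ⟨n1, fun N hN => ?_⟩
    obtain ⟨s, hs⟩ := hn1 N hN
    refine ⟨s, fun z => ?_⟩
    obtain ⟨q, hq⟩ := hs z
    refine ⟨q, ?_⟩
    rw [hq]
    rfl
  choose n1 hn1 using hgen
  let N : ℕ := Finset.univ.sup n1
  have hN : ∀ i, n1 i ≤ N := fun i => Finset.le_sup (Finset.mem_univ i)
  obtain ⟨s0, hs0⟩ := hn0 n0 le_rfl
  have hs := fun i => hn1 i N (hN i)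
  choose s hs using hs
  let ω : Fin n0 → F := fun k => V.germToFunctionField S.V0 (s0 k)
  let η : σ → Fin N → F := fun i l =>
    haveI := S.nonempty_Vinf i
    V.germToFunctionField (S.Vinf i) (s i l)
  have hR0 : ∀ x ∈ S.regular0, ∃ p : Fin n0 → P, x = ∑ k, algebraMap P E (p k) • ω k := by
    rintro x ⟨z, rfl⟩
    obtain ⟨q, hq⟩ := hs0 z
    refine ⟨q, ?_⟩
    rw [hq, map_sum]
    refine Finset.sum_congr rfl fun k _ => ?_
    rw [Algebra.smul_def (algebraMap P E (q k)) (ω k), hEF]
    change V.germToFunctionField S.V0 (aeval S.t (q k) * s0 k) = _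
    rw [map_mul, show φ = _ from S.aeval_τ]
    rfl
  have hR : ∀ i, ∀ y ∈ S.regularInf i, ∃ c : Fin N → E,
      (∀ l, degVal K E i (c l) ≤ 1) ∧ y = ∑ l, c l • η i l := by
    intro i y hy
    haveI := S.nonempty_Vinf i
    letI := sectionsAlgebra v (S.Vinf i)
    obtain ⟨z, rfl⟩ := hy
    obtain ⟨q, hq⟩ := hs i z
    refine ⟨fun l => aeval (uinf K σ i) (q l), fun l => degVal_aeval_uinf_le_one K σ i (q l), ?_⟩
    rw [hq, map_sum]
    refine Finset.sum_congr rfl fun l _ => ?_
    rw [Algebra.smul_def (aeval (uinf K σ i) (q l)) (η i l), haeval_inf, map_mul, S.aeval_τinf i]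
    rfl
  exact exists_finrank_le_mul_pow K E F ω S.regular0 hR0 η S.regularInf hR γ

end BoxSys

end Main

end Fermat.Agent.AV.Box14
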