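import Fermat.Agent.AV.Box14.Bound

/-!
# UPB-geo (CELL AV): the function field of a scheme with a box chart system

`K(V)` is a finite extension of `K(t_j : j ∈ σ)`: it has transcendence degree `card σ` over `K` and
is essentially of finite type.  Consequence: a field between `K` and `K(V)` containing `card σ`
algebraically independent elements has finite index in `K(V)`.
-/

set_option autoImplicit false
set_option linter.style.haveILetI false
set_option linter.unusedSectionVars false

open CategoryTheory CategoryTheory.Limits AlgebraicGeometry TopologicalSpace Opposite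
open Fermat.Agent.Jac MvPolynomial Cardinal

universe u

noncomputable section

namespace Fermat.Agent.AV.Box14

variable {K : Type u} [Field K] {V : Scheme.{u}} [IsIntegral V]
  {v : V ⟶ Spec (CommRingCat.of K)} {σ : Type}

namespace BoxSys

/-- The function field of a scheme with a box chart system is a finite extension of the field of
rational functions in the coordinates. -/
theorem exists_tower (S : BoxSys v σ) :
    letI := ffAlgebra v
    ∃ (_ : Algebra (FractionRing (MvPolynomial σ K)) V.functionField),
      IsScalarTower K (FractionRing (MvPolynomial σ K)) V.functionField ∧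
      FiniteDimensional (FractionRing (MvPolynomial σ K)) V.functionField := by
  classical
  letI := ffAlgebra v
  letI := sectionsAlgebra v S.V0
  haveI := S.nonempty_V0
  let P := MvPolynomial σ K
  let E := FractionRing P
  let F := V.functionField
  let φ : P →ₐ[K] F := aeval S.τ
  have hφinj : Function.Injective φ := S.aeval_τ_injective
  letI algEF : Algebra E F := (IsFractionRing.lift (g := φ.toRingHom) hφinj).toAlgebra
  have hEF : ∀ p : P, algebraMap E F (algebraMap P E p) = φ p := fun p =>
    IsFractionRing.lift_algebraMap (g := φ.toRingHom) hφinj p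
  haveI : IsScalarTower K E F := by
    refine IsScalarTower.of_algebraMap_eq fun a => ?_
    rw [IsScalarTower.algebraMap_apply K P E, hEF]
    exact (φ.commutes a).symm
  letI algPΓ : Algebra P Γ(V, S.V0) := (aeval S.t : P →ₐ[K] Γ(V, S.V0)).toRingHom.toAlgebra
  haveI : FaithfulSMul P Γ(V, S.V0) := (faithfulSMul_iff_algebraMap_injective _ _).mpr S.inj0
  haveI finΓ : Module.Finite P Γ(V, S.V0) := S.fin0
  letI algPF : Algebra P F := φ.toRingHom.toAlgebra
  haveI : IsFractionRing Γ(V, S.V0) F := functionField_isFractionRing_of_isAffineOpen V S.V0 S.aff0
  haveI : IsScalarTower P E F := IsScalarTower.of_algebraMap_eq fun p => (hEF p).symm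
  haveI : IsScalarTower P Γ(V, S.V0) F := by
    refine IsScalarTower.of_algebraMap_eq fun p => ?_
    change φ p = V.germToFunctionField S.V0 (aeval S.t p)
    rw [show φ = _ from S.aeval_τ]
    rfl
  exact ⟨algEF, inferInstance, Cnt14.finite_fractionField (B := P) (B' := Γ(V, S.V0))⟩

variable [Finite σ]

/-- The transcendence degree of the function field of a scheme with a box chart system. -/
theorem trdeg_functionField (S : BoxSys v σ) :
    letI := ffAlgebra v
    Algebra.trdeg K V.functionField = Nat.card σ := by
  letI := ffAlgebra v
  obtain ⟨algEF, htower, hfin⟩ := S.exists_tower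
  let P := MvPolynomial σ K
  let E := FractionRing P
  have h1 : Algebra.trdeg K P = Nat.card σ := by
    rw [MvPolynomial.trdeg_of_isDomain, ← Nat.cast_card (α := σ), Cardinal.lift_natCast]
  haveI : Algebra.IsAlgebraic P E :=
    (IsFractionRing.comap_isAlgebraic_iff (A := P) (K := E) (C := E)).mpr inferInstance
  have h2 : Algebra.trdeg P E = 0 := trdeg_eq_zero
  have h3 : Algebra.trdeg E V.functionField = 0 := trdeg_eq_zero
  have h4 := trdeg_add_eq K P (A := E)
  have h5 := trdeg_add_eq K E (A := V.functionField)
  rw [← h5, ← h4, h1, h2, h3, add_zero, add_zero]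

/-- The function field of a scheme with a box chart system is essentially of finite type. -/
theorem essFiniteType_functionField (S : BoxSys v σ) :
    letI := ffAlgebra v
    Algebra.EssFiniteType K V.functionField := by
  letI := ffAlgebra v
  obtain ⟨algEF, htower, hfin⟩ := S.exists_tower
  let P := MvPolynomial σ K
  let E := FractionRing P
  haveI : Algebra.EssFiniteType P E := Algebra.EssFiniteType.of_isLocalization E (nonZeroDivisors P)
  haveI : Algebra.EssFiniteType K E := Algebra.EssFiniteType.comp K P E
  exact Algebra.EssFiniteType.comp K E V.functionField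

end BoxSys

/-- A field extension `F / L` over `K` is finite as soon as `F / K` is essentially of finite type
of transcendence degree `N` and `L` contains `N` algebraically independent elements. -/
theorem finite_of_trdeg_eq {K L F : Type u} [Field K] [Field L] [Field F] [Algebra K L]
    [Algebra L F] [Algebra K F] [IsScalarTower K L F] [Algebra.EssFiniteType K F] (N : ℕ)
    (hF : Algebra.trdeg K F = N) (x : Fin N → L) (hx : AlgebraicIndependent K x) :
    Module.Finite L F := by
  have hle : (N : Cardinal.{u}) ≤ Algebra.trdeg K L := by
    have := hx.lift_cardinalMk_le_trdeg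
    simpa using this
  have hadd := trdeg_add_eq K L (A := F)
  rw [hF] at hadd
  have h0 : Algebra.trdeg L F = 0 := by
    have hc : Algebra.trdeg L F < ℵ₀ :=
      (le_add_self.trans hadd.le).trans_lt (Cardinal.natCast_lt_aleph0 (n := N))
    have ha : Algebra.trdeg K L < ℵ₀ :=
      (le_self_add.trans hadd.le).trans_lt (Cardinal.natCast_lt_aleph0 (n := N))
    obtain ⟨c, hc'⟩ := Cardinal.lt_aleph0.mp hc
    obtain ⟨a, ha'⟩ := Cardinal.lt_aleph0.mp ha
    rw [hc', ha'] at hadd
    rw [ha'] at hle
    rw [hc']
    have h1 : a + c = N := by exact_mod_cast hadd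
    have h2 : N ≤ a := by exact_mod_cast hle
    have : c = 0 := by omega
    rw [this, Nat.cast_zero]
  haveI : Algebra.IsAlgebraic L F := trdeg_eq_zero_iff.mp h0
  haveI : Algebra.EssFiniteType L F := Algebra.EssFiniteType.of_comp K L F
  exact Algebra.finite_of_essFiniteType_of_isAlgebraic

end Fermat.Agent.AV.Box14
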