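import Fermat.Agent.AV.Box14.Transfer
import Fermat.Agent.AV.Box14.Trdeg

/-!
# UPB-geo (CELL AV): the sum map of `g` curves onto a `g`-dimensional variety has finite degree

If `s : V ⟶ A` is a dominant `K`-morphism of integral schemes, `V` has a box chart system in `N`
coordinates and `K(A)` contains `N` algebraically independent elements, then `K(V) / K(A)` is
finite, i.e. `NormD43.degree s ≥ 1`.
-/

set_option autoImplicit false
set_option linter.style.haveILetI false
set_option linter.unusedSectionVars false

open CategoryTheory CategoryTheory.Limits AlgebraicGeometry TopologicalSpace Opposite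
open Fermat.Agent.Jac Fermat.Agent.AV.PicDiv86 NeronModelInfra GoodReductionJacobian

universe u

noncomputable section

namespace Fermat.Agent.AV.Box14

variable {K : Type u} [Field K] {A V : Scheme.{u}} [IsIntegral A] [IsIntegral V]
  {f : A ⟶ Spec (CommRingCat.of K)} {v : V ⟶ Spec (CommRingCat.of K)}

/-- Finiteness of the function field extension of a dominant morphism from a scheme with a box
chart system in `N` coordinates to a scheme with `N` algebraically independent functions. -/
theorem finite_functionField_of_boxSys (s : V ⟶ A) [IsDominant s] (hs : s ≫ f = v) {σ : Type}
    [Finite σ] (S : BoxSys v σ) [Algebra K A.functionField]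
    (halg : ∀ r : K, algebraMap K A.functionField r = Sand86.structK f r)
    (x : Fin (Nat.card σ) → A.functionField) (hx : AlgebraicIndependent K x) :
    Module.Finite A.functionField (Cnt14.FunctionFieldOver s) := by
  letI algKF : Algebra K V.functionField := ffAlgebra v
  letI algLF : Algebra A.functionField V.functionField :=
    (NormD43.functionFieldMap s).hom.toAlgebra
  haveI : IsScalarTower K A.functionField V.functionField :=
    IsScalarTower.of_algebraMap_eq fun r => by
      change algebraMap K V.functionField r =
        (NormD43.functionFieldMap s).hom (algebraMap K A.functionField r)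
      rw [halg, ← Sand86.functionFieldMap_eq, functionFieldMap_structK s hs]
      rfl
  haveI := S.essFiniteType_functionField
  have h : Module.Finite A.functionField V.functionField :=
    finite_of_trdeg_eq (Nat.card σ) S.trdeg_functionField x hx
  exact h

theorem degree_pos_of_boxSys (s : V ⟶ A) [IsDominant s] (hs : s ≫ f = v) {σ : Type}
    [Finite σ] (S : BoxSys v σ) [Algebra K A.functionField]
    (halg : ∀ r : K, algebraMap K A.functionField r = Sand86.structK f r)
    (x : Fin (Nat.card σ) → A.functionField) (hx : AlgebraicIndependent K x) :
    0 < NormD43.degree s := by
  haveI := finite_functionField_of_boxSys s hs S halg x hx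
  rw [← Cnt14.finrank_functionFieldOver]
  exact Module.finrank_pos

end Fermat.Agent.AV.Box14
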