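import Fermat.Agent.AV.Box14.Sys
import Fermat.Agent.AV.Curv33.Iface
import Fermat.Agent.Jac.FiniteToLine80.Main
import Fermat.Agent.Jac.GeomIntegral40

/-!
# UPB-geo (CELL AV): box chart systems on a product of curves

Induction over helper33's `Curv33.prodObj l`: over an algebraically closed field, the product of a
list of pointed smooth proper curves carries a box chart system indexed by a type of cardinality
`l.length`, and is an integral scheme.
-/

set_option autoImplicit false
set_option linter.style.haveILetI false

open CategoryTheory CategoryTheory.Limits AlgebraicGeometry TopologicalSpace Opposite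
open Fermat.Agent.Jac Fermat.Agent.AV.Curv33 NeronModelInfra

universe u

noncomputable section

namespace Fermat.Agent.AV.Box14

variable {K : Type u} [Field K] [IsAlgClosed K] {A : Scheme.{u}}
  {f : A ⟶ Spec (CommRingCat.of K)} {e : SchemeHomOver (𝟙 (Spec (CommRingCat.of K))) f}

/-- The product of a list of curves is a variety. -/
theorem isVar_prodHom (l : List (CurveTo f e)) : GeomIntegral40.IsVar (prodHom l) := by
  induction l with
  | nil => exact GeomIntegral40.IsVar.id
  | cons X l ih =>
    have hX : GeomIntegral40.IsVar X.c := ⟨X.isIntegral, inferInstance⟩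
    exact GeomIntegral40.IsVar.pullback hX ih

theorem isIntegral_prodObj (l : List (CurveTo f e)) : IsIntegral (prodObj l) :=
  (isVar_prodHom l).isIntegral

/-- **Existence of a box chart system on a product of curves.** -/
theorem exists_boxSys (l : List (CurveTo f e)) :
    ∃ (σ : Type) (_ : Fintype σ), Fintype.card σ = l.length ∧ Nonempty (BoxSys (prodHom l) σ) := by
  induction l with
  | nil => exact ⟨PEmpty.{1}, inferInstance, by simp, ⟨BoxSys.base⟩⟩
  | cons X l ih =>
    obtain ⟨σ, hσ, hcard, ⟨S⟩⟩ := ih
    obtain ⟨cc⟩ := FiniteToLine80.nonempty_curveCharts X.c X.ε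
    refine ⟨PUnit.{1} ⊕ σ, inferInstance, ?_, ⟨BoxSys.prod X.c (prodHom l) cc S⟩⟩
    rw [Fintype.card_sum, hcard, List.length_cons]
    simp [add_comm]

end Fermat.Agent.AV.Box14
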