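import Fermat.Agent.AV.Box14.Bound
import Fermat.Agent.AV.Box14.List
import Fermat.Agent.AV.Upb43.DivBound

/-!
# UPB-geo (CELL AV): `h⁰(m D) = O(m ^ N)` on a scheme with a box chart system

Combination of `BoxSys.exists_growth_bound` with helper43's universal denominators
(`Upb43.exists_mul_pow_mem_regularOn`), and the case of a product of curves.
-/

set_option autoImplicit false
set_option linter.style.haveILetI false
set_option linter.unusedSectionVars false

open CategoryTheory CategoryTheory.Limits AlgebraicGeometry TopologicalSpace Opposite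
open Fermat.Agent.Jac Fermat.Agent.AV.PicDiv86 NeronModelInfra

universe u

noncomputable section

namespace Fermat.Agent.AV.Box14

variable {K : Type u} [Field K] {V : Scheme.{u}} [IsIntegral V]
  {v : V ⟶ Spec (CommRingCat.of K)} {σ : Type} [Fintype σ] (S : BoxSys v σ)

namespace BoxSys

theorem mem_regular0_iff (x : V.functionField) :
    x ∈ S.regular0 ↔ x ∈ regularOn V (S.V0 : Set V) := by
  haveI := S.nonempty_V0
  rw [mem_regularOn_iff]
  rfl

theorem mem_regularInf_iff (i : σ) (x : V.functionField) :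
    x ∈ S.regularInf i ↔ x ∈ regularOn V (S.Vinf i : Set V) := by
  haveI := S.nonempty_Vinf i
  rw [mem_regularOn_iff]
  rfl

/-- **UPB, geometric form.** On an integral `K`-scheme with a box chart system indexed by `σ`, the
spaces of sections of the multiples of an effective Cartier divisor grow at most like
`m ^ card σ`. -/
theorem exists_finrank_H0_le (S : BoxSys v σ) {D : CaDiv V} (hD : D.IsEffective) :
    letI := ffAlgebra v
    ∃ C : ℕ, ∀ (m : ℕ) (W : Submodule K V.functionField), 1 ≤ m →
      (∀ f ∈ W, f ∈ (D ^ m).H0) →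
      Module.Finite K W ∧ Module.finrank K W ≤ C * m ^ Fintype.card σ := by
  letI := ffAlgebra v
  haveI := S.nonempty_V0
  haveI := S.nonempty_Vinf
  obtain ⟨h0, h0ne, -, h0D⟩ := Upb43.exists_mul_pow_mem_regularOn hD S.aff0
  choose h hne _ hiD using fun i => Upb43.exists_mul_pow_mem_regularOn hD (S.affinf i)
  obtain ⟨C, hC⟩ := S.exists_growth_bound (fun i => h0 * (h i)⁻¹)
  refine ⟨C, fun m W hm hW => ?_⟩
  have hinj : Function.Injective
      (LinearMap.mulLeft K (h0 ^ m) : V.functionField →ₗ[K] V.functionField) := by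
    intro a b hab
    exact mul_left_cancel₀ (pow_ne_zero m h0ne) hab
  obtain ⟨h1, h2⟩ := hC m (W.map (LinearMap.mulLeft K (h0 ^ m))) hm (by
    rintro _ ⟨f, hf, rfl⟩
    have hfD := hW f hf
    refine ⟨(S.mem_regular0_iff _).2 ?_,
      fun i => ⟨f * h i ^ m, (S.mem_regularInf_iff i _).2 (hiD i m f hfD), ?_⟩⟩
    · rw [LinearMap.mulLeft_apply, mul_comm]
      exact h0D m f hfD
    · rw [LinearMap.mulLeft_apply, mul_pow, inv_pow]
      field_simp [hne i])
  let e : W ≃ₗ[K] W.map (LinearMap.mulLeft K (h0 ^ m)) := Submodule.equivMapOfInjective _ hinj W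
  exact ⟨Module.Finite.equiv e.symm, by rw [e.finrank_eq]; exact h2⟩

end BoxSys

section Product

open Fermat.Agent.AV.Curv33

variable {K : Type u} [Field K] [IsAlgClosed K] {A : Scheme.{u}}
  {f : A ⟶ Spec (CommRingCat.of K)} {e : SchemeHomOver (𝟙 (Spec (CommRingCat.of K))) f}

/-- **UPB on a product of curves.** -/
theorem exists_finrank_H0_le_prodObj (l : List (CurveTo f e)) :
    haveI := isIntegral_prodObj l
    letI := ffAlgebra (prodHom l)
    ∀ {D : CaDiv (prodObj l)}, D.IsEffective →
    ∃ C : ℕ, ∀ (m : ℕ) (W : Submodule K (prodObj l).functionField), 1 ≤ m →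
      (∀ f ∈ W, f ∈ (D ^ m).H0) →
      Module.Finite K W ∧ Module.finrank K W ≤ C * m ^ l.length := by
  haveI := isIntegral_prodObj l
  letI := ffAlgebra (prodHom l)
  intro D hD
  obtain ⟨σ, hσ, hcard, ⟨S⟩⟩ := exists_boxSys l
  rw [← hcard]
  exact S.exists_finrank_H0_le hD

end Product

end Fermat.Agent.AV.Box14
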