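import Fermat.Agent.AV.Box14.Sys
import Fermat.Agent.AV.Cnt14.FunctionField

/-!
# UPB-geo (CELL AV): the function field of an integral `K`-scheme as a `K`-algebra

`ffAlgebra v : Algebra K V.functionField`, the germ maps `Γ(V, U) →ₐ[K] K(V)`, and restriction
lemmas for germs at the generic point.
-/

set_option autoImplicit false
set_option linter.style.haveILetI false
set_option linter.unusedSectionVars false

open CategoryTheory CategoryTheory.Limits AlgebraicGeometry TopologicalSpace Opposite
open Fermat.Agent.Jac

universe u

noncomputable section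

namespace Fermat.Agent.AV.Box14

variable {K : Type u} [Field K] {V : Scheme.{u}} [IsIntegral V]
  (v : V ⟶ Spec (CommRingCat.of K))

instance nonemptyTop : Nonempty (⊤ : V.Opens) :=
  ⟨⟨Classical.arbitrary V, trivial⟩⟩

/-- The canonical `K`-algebra structure on the function field of a `K`-scheme (a reducible
definition, to be activated locally). -/
@[reducible] def ffAlgebra : Algebra K V.functionField :=
  ((V.germToFunctionField ⊤).hom.comp (sectionsRingHom v ⊤)).toAlgebra

/-- Germs at the generic point are compatible with restriction. -/
theorem germToFunctionField_res {U U' : V.Opens} [Nonempty U] [Nonempty U'] (h : U ≤ U')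
    (s : Γ(V, U')) :
    V.germToFunctionField U ((V.presheaf.map (homOfLE h).op).hom s) =
      V.germToFunctionField U' s :=
  V.presheaf.germ_res_apply (homOfLE h) (genericPoint V) _ s

theorem sectionsRingHom_res {U U' : V.Opens} (h : U ≤ U') (a : K) :
    (V.presheaf.map (homOfLE h).op).hom (sectionsRingHom v U' a) = sectionsRingHom v U a := by
  unfold sectionsRingHom
  simp only [CommRingCat.hom_comp, RingHom.coe_comp, Function.comp_apply]
  rw [← CommRingCat.comp_apply, ← Functor.map_comp]
  rfl

theorem algebraMap_ff (U : V.Opens) [Nonempty U] (a : K) :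
    letI := ffAlgebra v
    algebraMap K V.functionField a = V.germToFunctionField U (sectionsRingHom v U a) := by
  letI := ffAlgebra v
  rw [← sectionsRingHom_res v (le_top : U ≤ ⊤) a, germToFunctionField_res]
  rfl

/-- The germ map at the generic point as a `K`-algebra homomorphism. -/
def germAlgHom (U : V.Opens) [Nonempty U] :
    letI := sectionsAlgebra v U
    letI := ffAlgebra v
    Γ(V, U) →ₐ[K] V.functionField :=
  letI := sectionsAlgebra v U
  letI := ffAlgebra v
  { (V.germToFunctionField U).hom with
    commutes' := fun a => (algebraMap_ff v U a).symm }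

theorem germAlgHom_apply (U : V.Opens) [Nonempty U] (s : Γ(V, U)) :
    germAlgHom v U s = V.germToFunctionField U s := rfl

theorem germAlgHom_injective (U : V.Opens) [Nonempty U] :
    Function.Injective (germAlgHom v U) :=
  Scheme.germToFunctionField_injective V U

/-- Two nonempty opens of an integral scheme meet. -/
theorem nonempty_inf (U U' : V.Opens) [hU : Nonempty U] [hU' : Nonempty U'] :
    Nonempty (U ⊓ U' : V.Opens) := by
  obtain ⟨x, hx⟩ := hU
  obtain ⟨y, hy⟩ := hU'
  obtain ⟨z, hz1, hz2⟩ := nonempty_preirreducible_inter U.isOpen U'.isOpen ⟨x, hx⟩ ⟨y, hy⟩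
  exact ⟨⟨z, hz1, hz2⟩⟩

end Fermat.Agent.AV.Box14
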