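import Mathlib
import Fermat.Agent.Jac.CurveCharts
import Fermat.Agent.AV.Box14.Alg

/-!
# UPB-geo (CELL AV): a product of two affine charts

For `K`-schemes `x : X ⟶ Spec K`, `y : Y ⟶ Spec K` and affine opens `U ⊆ X`, `W ⊆ Y`, the open
`boxOpen x y U W = fst⁻¹ U ⊓ snd⁻¹ W` of `X ×_K Y` is affine and
`Γ(X, U) ⊗[K] Γ(Y, W) → Γ(X ×_K Y, boxOpen)` is bijective
(Mathlib's `isIso_pushoutSection_of_isAffineOpen`, rephrased with honest `K`-algebras).
-/

set_option autoImplicit false
set_option linter.style.haveILetI false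

open CategoryTheory CategoryTheory.Limits AlgebraicGeometry TopologicalSpace Opposite
open Fermat.Agent.Jac

universe u

noncomputable section

namespace Fermat.Agent.AV.Box14

variable {K : Type u} [Field K] {X Y : Scheme.{u}}
  (x : X ⟶ Spec (CommRingCat.of K)) (y : Y ⟶ Spec (CommRingCat.of K))

/-- The product chart. -/
abbrev boxOpen (U : X.Opens) (W : Y.Opens) : (pullback x y).Opens :=
  pullback.fst x y ⁻¹ᵁ U ⊓ pullback.snd x y ⁻¹ᵁ W

/-- The structure morphism of the product. -/
abbrev prodStr : pullback x y ⟶ Spec (CommRingCat.of K) := pullback.fst x y ≫ x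

theorem isAffineOpen_boxOpen {U : X.Opens} {W : Y.Opens} (hU : IsAffineOpen U)
    (hW : IsAffineOpen W) : IsAffineOpen (boxOpen x y U W) := by
  have H : IsPullback (pullback.fst x y) (pullback.snd x y) x y := IsPullback.of_hasPullback _ _
  have : IsAffine ((⊤ : (Spec (CommRingCat.of K)).Opens) : Scheme) := isAffineOpen_top _
  have : IsAffine (U : Scheme) := hU
  have : IsAffine (W : Scheme) := hW
  exact .of_isIso (Scheme.Hom.isPullback_resLE H (US := ⊤) (UT := W) (UX := U)
    le_top le_top rfl).isoPullback.hom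

/-- The pushout square of sections (Mathlib). -/
theorem isPushout_boxOpen {U : X.Opens} {W : Y.Opens} (hU : IsAffineOpen U)
    (hW : IsAffineOpen W) :
    IsPushout (x.appLE ⊤ U le_top) (y.appLE ⊤ W le_top)
      ((pullback.fst x y).appLE U (boxOpen x y U W) inf_le_left)
      ((pullback.snd x y).appLE W (boxOpen x y U W) inf_le_right) := by
  have H : IsPullback (pullback.fst x y) (pullback.snd x y) x y := IsPullback.of_hasPullback _ _
  have := isIso_pushoutSection_of_isAffineOpen H (US := ⊤) (UT := W) (UX := U) le_top le_top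
    (rfl : boxOpen x y U W = _) (isAffineOpen_top _) hW hU
  exact (isIso_pushoutSection_iff H le_top le_top rfl).mp this

/-- The pushout square with `K` in the corner. -/
theorem isPushout_boxOpen' {U : X.Opens} {W : Y.Opens} (hU : IsAffineOpen U)
    (hW : IsAffineOpen W) :
    IsPushout (CommRingCat.ofHom (sectionsRingHom x U)) (CommRingCat.ofHom (sectionsRingHom y W))
      ((pullback.fst x y).appLE U (boxOpen x y U W) inf_le_left)
      ((pullback.snd x y).appLE W (boxOpen x y U W) inf_le_right) := by
  refine (isPushout_boxOpen x y hU hW).of_iso (Scheme.ΓSpecIso (CommRingCat.of K))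
    (Iso.refl _) (Iso.refl _) (Iso.refl _) ?_ ?_ ?_ ?_
  · rw [Iso.refl_hom, Category.comp_id]
    have : CommRingCat.ofHom (sectionsRingHom x U) =
        (Scheme.ΓSpecIso (CommRingCat.of K)).inv ≫ x.appLE ⊤ U le_top := rfl
    rw [this, Iso.hom_inv_id_assoc]
  · rw [Iso.refl_hom, Category.comp_id]
    have : CommRingCat.ofHom (sectionsRingHom y W) =
        (Scheme.ΓSpecIso (CommRingCat.of K)).inv ≫ y.appLE ⊤ W le_top := rfl
    rw [this, Iso.hom_inv_id_assoc]
  · simp
  · simp

/-- Restriction along a morphism of `K`-schemes is compatible with the structure maps. -/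
theorem appLE_sectionsRingHom {X' : Scheme.{u}} (x' : X' ⟶ Spec (CommRingCat.of K)) (φ : X' ⟶ X)
    (hφ : φ ≫ x = x') (U : X.Opens) (V : X'.Opens) (e : V ≤ φ ⁻¹ᵁ U) (a : K) :
    (φ.appLE U V e).hom (sectionsRingHom x U a) = sectionsRingHom x' V a := by
  subst hφ
  have h : x.appLE ⊤ U le_top ≫ φ.appLE U V e = (φ ≫ x).appLE ⊤ V le_top :=
    Scheme.Hom.appLE_comp_appLE _ _ _ _ _ _ _
  have h2 : CommRingCat.ofHom (sectionsRingHom x U) ≫ φ.appLE U V e =
      CommRingCat.ofHom (sectionsRingHom (φ ≫ x) V) := by
    change ((Scheme.ΓSpecIso (CommRingCat.of K)).inv ≫ x.appLE ⊤ U le_top) ≫ φ.appLE U V e =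
      (Scheme.ΓSpecIso (CommRingCat.of K)).inv ≫ (φ ≫ x).appLE ⊤ V le_top
    rw [Category.assoc, h]
  exact congrArg (fun ψ => ψ.hom a) h2

/-- Pullback of sections along the first projection, as a `K`-algebra homomorphism. -/
def fstAlgHom (U : X.Opens) (W : Y.Opens) :
    letI := sectionsAlgebra x U
    letI := sectionsAlgebra (prodStr x y) (boxOpen x y U W)
    Γ(X, U) →ₐ[K] Γ(pullback x y, boxOpen x y U W) :=
  letI := sectionsAlgebra x U
  letI := sectionsAlgebra (prodStr x y) (boxOpen x y U W)
  { ((pullback.fst x y).appLE U (boxOpen x y U W) inf_le_left).hom with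
    commutes' := fun a =>
      appLE_sectionsRingHom x (prodStr x y) (pullback.fst x y) rfl U _ inf_le_left a }

/-- Pullback of sections along the second projection, as a `K`-algebra homomorphism. -/
def sndAlgHom (U : X.Opens) (W : Y.Opens) :
    letI := sectionsAlgebra y W
    letI := sectionsAlgebra (prodStr x y) (boxOpen x y U W)
    Γ(Y, W) →ₐ[K] Γ(pullback x y, boxOpen x y U W) :=
  letI := sectionsAlgebra y W
  letI := sectionsAlgebra (prodStr x y) (boxOpen x y U W)
  { ((pullback.snd x y).appLE W (boxOpen x y U W) inf_le_right).hom with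
    commutes' := fun a =>
      appLE_sectionsRingHom y (prodStr x y) (pullback.snd x y) pullback.condition.symm W _
        inf_le_right a }

open TensorProduct in
/-- **Sections over a product chart are the tensor product.** -/
theorem bijective_productMap {U : X.Opens} {W : Y.Opens} (hU : IsAffineOpen U)
    (hW : IsAffineOpen W) :
    letI := sectionsAlgebra x U
    letI := sectionsAlgebra y W
    letI := sectionsAlgebra (prodStr x y) (boxOpen x y U W)
    Function.Bijective (Algebra.TensorProduct.productMap (fstAlgHom x y U W) (sndAlgHom x y U W)) := by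
  letI := sectionsAlgebra x U
  letI := sectionsAlgebra y W
  letI := sectionsAlgebra (prodStr x y) (boxOpen x y U W)
  have h1 := isPushout_boxOpen' x y hU hW
  have h2 := CommRingCat.isPushout_tensorProduct K Γ(X, U) Γ(Y, W)
  let e := h2.isoIsPushout _ _ h1
  have he : ∀ z, e.hom z =
      Algebra.TensorProduct.productMap (fstAlgHom x y U W) (sndAlgHom x y U W) z := by
    intro z
    induction z using TensorProduct.induction_on with
    | zero => simp
    | add a b ha hb => rw [map_add, map_add, ha, hb]
    | tmul a b =>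
      have hl : e.hom (a ⊗ₜ 1) = (fstAlgHom x y U W) a :=
        congrArg (fun ψ => ψ.hom a) (h2.inl_isoIsPushout_hom _ _ h1)
      have hr : e.hom (1 ⊗ₜ b) = (sndAlgHom x y U W) b :=
        congrArg (fun ψ => ψ.hom b) (h2.inr_isoIsPushout_hom _ _ h1)
      have : (a ⊗ₜ[K] b : Γ(X, U) ⊗[K] Γ(Y, W)) = (a ⊗ₜ 1) * (1 ⊗ₜ b) := by simp
      rw [this, map_mul, map_mul, hl, hr]
      simp
  have hb : Function.Bijective e.hom := ConcreteCategory.bijective_of_isIso e.hom
  have hfun : (⇑e.hom : _ → _) =
      ⇑(Algebra.TensorProduct.productMap (fstAlgHom x y U W) (sndAlgHom x y U W)) := funext he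
  rw [← hfun]
  exact hb

end Fermat.Agent.AV.Box14
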