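import Fermat.Agent.AV.Box14.Degree
import Fermat.Agent.AV.Pic38.Calc

/-!
# GENFIN (CELL AV): the degree of the sum map of `g` curves onto a `g`-dimensional group scheme
is nonzero

`K(∏ l)` has transcendence degree `l.length` over `K` (box chart system) and `K(A)` contains `g`
algebraically independent elements (`Var81`), so for `l.length = g` the extension
`K(∏ l) / K(A)` is algebraic, and finite since `K(∏ l)` is essentially of finite type.
-/

set_option autoImplicit false
set_option linter.style.haveILetI false
set_option linter.unusedSectionVars false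

open CategoryTheory CategoryTheory.Limits AlgebraicGeometry TopologicalSpace Opposite
open Fermat.Agent.Jac Fermat.Agent.AV.PicDiv86 NeronModelInfra GoodReductionJacobian
open Fermat.Agent.AV.Curv33

universe u

noncomputable section

namespace Fermat.Agent.AV.Box14

variable {K : Type u} [Field K] [IsAlgClosed K] {A : Scheme.{u}}
  {f : A ⟶ Spec (CommRingCat.of K)}

/-- The degree of a dominant sum map of `g` curves to an integral `K`-scheme which is smooth of
relative dimension `g` is positive. -/
theorem degree_sumMap_pos (G : RelativeGroupLaw K f) [IsIntegral A] (g : ℕ)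
    [SmoothOfRelativeDimension g f] {e : SchemeHomOver (𝟙 (Spec (CommRingCat.of K))) f}
    (l : List (CurveTo f e)) [IsDominant (sumMap G l)] (hl : l.length = g) :
    haveI := isIntegral_prodObj l
    0 < NormD43.degree (sumMap G l) := by
  haveI := isIntegral_prodObj l
  obtain ⟨σ, hσ, hcard, ⟨S⟩⟩ := exists_boxSys l
  letI : Algebra K A.functionField := (Sand86.structK f).toAlgebra
  have halg : ∀ r : K, algebraMap K A.functionField r = Sand86.structK f r := fun _ => rfl
  obtain ⟨x₀⟩ : Nonempty A := inferInstance
  obtain ⟨U, hU, hx₀, -⟩ :=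
    exists_isAffineOpen_mem_and_subset (X := A) (x := x₀) (U := ⊤) trivial
  haveI : Nonempty U := ⟨⟨x₀, hx₀⟩⟩
  obtain ⟨x, hx, -⟩ := Sand86.exists_algebraicIndependent_regularOn (f := f) g halg hU
  have hN : Nat.card σ = g := by rw [Nat.card_eq_fintype_card, hcard, hl]
  exact degree_pos_of_boxSys (sumMap G l) (sumMap_f G l) S halg (x ∘ Fin.cast hN)
    (hx.comp _ (Fin.cast_injective hN))

/-- **GENFIN** in the form used by the CUBE glue. -/
theorem sumDegree_ne_zero (G : RelativeGroupLaw K f) (hA : AbelianSchemePropertyBundle K f)
    (g : ℕ) [SmoothOfRelativeDimension g f]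
    (l : List (CurveTo f (G.one (𝟙 (Spec (CommRingCat.of K)))))) [IsDominant (sumMap G l)]
    (hl : l.length = g) : Pic38.sumDegree G hA l ≠ 0 := by
  haveI := Var81.isIntegral_of_bundle f hA
  exact (degree_sumMap_pos G g l hl).ne'

end Fermat.Agent.AV.Box14
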