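import Fermat.Agent.AV.Box14.Product

/-!
# UPB-geo (CELL AV): box chart systems

`BoxSys v σ`: on a `K`-scheme `v : V ⟶ Spec K` an affine open `V0` with coordinates
`t : σ → Γ(V, V0)` such that `K[t] → Γ(V, V0)` is finite and injective, and for every `i : σ` an
affine open `Vinf i` with coordinates `tinf i : σ → Γ(V, Vinf i)`, again finite and injective,
where `tinf i j = t j` (`j ≠ i`) and `tinf i i * t i = 1` on the overlap `V0 ⊓ Vinf i`.

* `BoxSys.base` : the trivial system on `Spec K` (`σ = PEmpty`);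
* `BoxSys.prod` : from two-chart data on a curve `c : C ⟶ Spec K` and a system on `v`, a system on
  `C ×_K V` indexed by `PUnit ⊕ σ`.
-/

set_option autoImplicit false
set_option linter.style.haveILetI false

open CategoryTheory CategoryTheory.Limits AlgebraicGeometry TopologicalSpace Opposite
open Fermat.Agent.Jac MvPolynomial

universe u

noncomputable section

namespace Fermat.Agent.AV.Box14

variable {K : Type u} [Field K]

/-- A box chart system on a `K`-scheme. -/
structure BoxSys {V : Scheme.{u}} (v : V ⟶ Spec (CommRingCat.of K)) (σ : Type) where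
  V0 : V.Opens
  aff0 : IsAffineOpen V0
  t : σ → Γ(V, V0)
  fin0 : letI := sectionsAlgebra v V0
    (aeval t : MvPolynomial σ K →ₐ[K] Γ(V, V0)).Finite
  inj0 : letI := sectionsAlgebra v V0
    Function.Injective (aeval t : MvPolynomial σ K →ₐ[K] Γ(V, V0))
  Vinf : σ → V.Opens
  affinf : ∀ i, IsAffineOpen (Vinf i)
  tinf : ∀ i, σ → Γ(V, Vinf i)
  fininf : ∀ i, letI := sectionsAlgebra v (Vinf i)
    (aeval (tinf i) : MvPolynomial σ K →ₐ[K] Γ(V, Vinf i)).Finite
  injinf : ∀ i, letI := sectionsAlgebra v (Vinf i)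
    Function.Injective (aeval (tinf i) : MvPolynomial σ K →ₐ[K] Γ(V, Vinf i))
  compat_ne : ∀ i j, j ≠ i →
    (V.presheaf.map (homOfLE (inf_le_left : V0 ⊓ Vinf i ≤ V0)).op).hom (t j) =
      (V.presheaf.map (homOfLE (inf_le_right : V0 ⊓ Vinf i ≤ Vinf i)).op).hom (tinf i j)
  compat_eq : ∀ i,
    (V.presheaf.map (homOfLE (inf_le_left : V0 ⊓ Vinf i ≤ V0)).op).hom (t i) *
      (V.presheaf.map (homOfLE (inf_le_right : V0 ⊓ Vinf i ≤ Vinf i)).op).hom (tinf i i) = 1

/-- Restriction commutes with pullback of sections. -/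
theorem map_appLE_eq {P V : Scheme.{u}} (φ : P ⟶ V) {W W' : V.Opens} {B B' : P.Opens}
    (e : B ≤ φ ⁻¹ᵁ W) (e' : B' ≤ φ ⁻¹ᵁ W') (hW : W' ≤ W) (hB : B' ≤ B) (s : Γ(V, W)) :
    (P.presheaf.map (homOfLE hB).op).hom ((φ.appLE W B e).hom s) =
      (φ.appLE W' B' e').hom ((V.presheaf.map (homOfLE hW).op).hom s) := by
  have h1 : φ.appLE W B e ≫ P.presheaf.map (homOfLE hB).op = φ.appLE W B' (hB.trans e) :=
    Scheme.Hom.appLE_map _ _ _
  have h2 : V.presheaf.map (homOfLE hW).op ≫ φ.appLE W' B' e' = φ.appLE W B' (hB.trans e) :=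
    Scheme.Hom.map_appLE _ _ _
  have := h1.trans h2.symm
  exact congrArg (fun ψ => ψ.hom s) this

/-- The same section pulled back to two opens agrees on the overlap. -/
theorem res_appLE_same {P V : Scheme.{u}} (φ : P ⟶ V) {W : V.Opens} {B1 B2 : P.Opens}
    (e1 : B1 ≤ φ ⁻¹ᵁ W) (e2 : B2 ≤ φ ⁻¹ᵁ W) (s : Γ(V, W)) :
    (P.presheaf.map (homOfLE (inf_le_left : B1 ⊓ B2 ≤ B1)).op).hom ((φ.appLE W B1 e1).hom s) =
      (P.presheaf.map (homOfLE (inf_le_right : B1 ⊓ B2 ≤ B2)).op).hom
        ((φ.appLE W B2 e2).hom s) := by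
  rw [map_appLE_eq φ e1 (inf_le_left.trans e1) le_rfl inf_le_left,
    map_appLE_eq φ e2 (inf_le_left.trans e1) le_rfl inf_le_right]

/-- Sections agreeing on an overlap have pullbacks agreeing on the overlap. -/
theorem res_appLE_of_res_eq {P V : Scheme.{u}} (φ : P ⟶ V) {W1 W2 : V.Opens} {B1 B2 : P.Opens}
    (e1 : B1 ≤ φ ⁻¹ᵁ W1) (e2 : B2 ≤ φ ⁻¹ᵁ W2) (s1 : Γ(V, W1)) (s2 : Γ(V, W2))
    (h : (V.presheaf.map (homOfLE (inf_le_left : W1 ⊓ W2 ≤ W1)).op).hom s1 =
      (V.presheaf.map (homOfLE (inf_le_right : W1 ⊓ W2 ≤ W2)).op).hom s2) :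
    (P.presheaf.map (homOfLE (inf_le_left : B1 ⊓ B2 ≤ B1)).op).hom ((φ.appLE W1 B1 e1).hom s1) =
      (P.presheaf.map (homOfLE (inf_le_right : B1 ⊓ B2 ≤ B2)).op).hom
        ((φ.appLE W2 B2 e2).hom s2) := by
  have hB : B1 ⊓ B2 ≤ φ ⁻¹ᵁ (W1 ⊓ W2) :=
    le_inf (inf_le_left.trans e1) (inf_le_right.trans e2)
  rw [map_appLE_eq φ e1 hB inf_le_left inf_le_left,
    map_appLE_eq φ e2 hB inf_le_right inf_le_right, h]

/-- Sections inverse to each other on an overlap have pullbacks inverse to each other. -/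
theorem res_appLE_mul_eq_one {P V : Scheme.{u}} (φ : P ⟶ V) {W1 W2 : V.Opens} {B1 B2 : P.Opens}
    (e1 : B1 ≤ φ ⁻¹ᵁ W1) (e2 : B2 ≤ φ ⁻¹ᵁ W2) (s1 : Γ(V, W1)) (s2 : Γ(V, W2))
    (h : (V.presheaf.map (homOfLE (inf_le_left : W1 ⊓ W2 ≤ W1)).op).hom s1 *
      (V.presheaf.map (homOfLE (inf_le_right : W1 ⊓ W2 ≤ W2)).op).hom s2 = 1) :
    (P.presheaf.map (homOfLE (inf_le_left : B1 ⊓ B2 ≤ B1)).op).hom ((φ.appLE W1 B1 e1).hom s1) *
      (P.presheaf.map (homOfLE (inf_le_right : B1 ⊓ B2 ≤ B2)).op).hom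
        ((φ.appLE W2 B2 e2).hom s2) = 1 := by
  have hB : B1 ⊓ B2 ≤ φ ⁻¹ᵁ (W1 ⊓ W2) :=
    le_inf (inf_le_left.trans e1) (inf_le_right.trans e2)
  rw [map_appLE_eq φ e1 hB inf_le_left inf_le_left,
    map_appLE_eq φ e2 hB inf_le_right inf_le_right, ← map_mul, h, map_one]

section Base

theorem bijective_sectionsRingHom_id :
    Function.Bijective (sectionsRingHom (𝟙 (Spec (CommRingCat.of K)))
      (⊤ : (Spec (CommRingCat.of K)).Opens)) := by
  have h : CommRingCat.ofHom (sectionsRingHom (𝟙 (Spec (CommRingCat.of K)))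
      (⊤ : (Spec (CommRingCat.of K)).Opens)) = (Scheme.ΓSpecIso (CommRingCat.of K)).inv := by
    change (Scheme.ΓSpecIso (CommRingCat.of K)).inv ≫
      Scheme.Hom.appTop (𝟙 (Spec (CommRingCat.of K))) ≫
      (Spec (CommRingCat.of K)).presheaf.map (homOfLE (le_top : (⊤ : (Spec _).Opens) ≤ ⊤)).op = _
    have h2 : (homOfLE (le_top : (⊤ : (Spec (CommRingCat.of K)).Opens) ≤ ⊤)).op = 𝟙 _ := rfl
    rw [h2, CategoryTheory.Functor.map_id]
    simp
  have hb : Function.Bijective (Scheme.ΓSpecIso (CommRingCat.of K)).inv :=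
    ConcreteCategory.bijective_of_isIso _
  rw [← h] at hb
  exact hb

/-- The trivial box system on `Spec K`. -/
def BoxSys.base : BoxSys (𝟙 (Spec (CommRingCat.of K))) PEmpty.{1} where
  V0 := ⊤
  aff0 := isAffineOpen_top _
  t := fun i => i.elim
  fin0 := by
    letI := sectionsAlgebra (𝟙 (Spec (CommRingCat.of K))) (⊤ : (Spec (CommRingCat.of K)).Opens)
    apply RingHom.Finite.of_surjective
    intro z
    obtain ⟨a, rfl⟩ := (bijective_sectionsRingHom_id (K := K)).2 z
    exact ⟨C a, by simp; rfl⟩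
  inj0 := by
    letI := sectionsAlgebra (𝟙 (Spec (CommRingCat.of K))) (⊤ : (Spec (CommRingCat.of K)).Opens)
    intro p q hpq
    apply (isEmptyAlgEquiv K PEmpty.{1}).injective
    apply (bijective_sectionsRingHom_id (K := K)).1
    have hh : (aeval (fun i : PEmpty.{1} => (i.elim : Γ(Spec (CommRingCat.of K), ⊤))) :
        MvPolynomial PEmpty.{1} K →ₐ[K] Γ(Spec (CommRingCat.of K), ⊤)) =
        (Algebra.ofId K Γ(Spec (CommRingCat.of K), ⊤)).comp
          (isEmptyAlgEquiv K PEmpty.{1}).toAlgHom :=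
      MvPolynomial.algHom_ext (fun i => i.elim)
    have h : ∀ r : MvPolynomial PEmpty.{1} K,
        aeval (fun i : PEmpty.{1} => (i.elim : Γ(Spec (CommRingCat.of K), ⊤))) r =
          sectionsRingHom (𝟙 (Spec (CommRingCat.of K))) ⊤ (isEmptyAlgEquiv K PEmpty.{1} r) := by
      intro r
      rw [hh]
      rfl
    rw [← h, ← h]
    exact hpq
  Vinf := fun i => i.elim
  affinf := fun i => i.elim
  tinf := fun i => i.elim
  fininf := fun i => i.elim
  injinf := fun i => i.elim
  compat_ne := fun i => i.elim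
  compat_eq := fun i => i.elim

end Base

section Prod

variable {C V : Scheme.{u}} (c : C ⟶ Spec (CommRingCat.of K)) (v : V ⟶ Spec (CommRingCat.of K))

/-- Coordinates on a product chart. -/
def prodCoord {σ : Type} (U : C.Opens) (W : V.Opens) (a : Γ(C, U)) (t : σ → Γ(V, W)) :
    PUnit.{1} ⊕ σ → Γ(pullback c v, boxOpen c v U W) :=
  Sum.elim (fun _ => ((pullback.fst c v).appLE U (boxOpen c v U W) inf_le_left).hom a)
    (fun j => ((pullback.snd c v).appLE W (boxOpen c v U W) inf_le_right).hom (t j))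

theorem finite_aeval_prodCoord {σ : Type} {U : C.Opens} {W : V.Opens} (hU : IsAffineOpen U)
    (hW : IsAffineOpen W) (a : Γ(C, U)) (t : σ → Γ(V, W))
    (ha : letI := sectionsAlgebra c U
      (aeval (fun _ : PUnit.{1} => a) : MvPolynomial PUnit.{1} K →ₐ[K] Γ(C, U)).Finite)
    (ht : letI := sectionsAlgebra v W
      (aeval t : MvPolynomial σ K →ₐ[K] Γ(V, W)).Finite) :
    letI := sectionsAlgebra (prodStr c v) (boxOpen c v U W)
    (aeval (prodCoord c v U W a t) :
      MvPolynomial (PUnit.{1} ⊕ σ) K →ₐ[K] Γ(pullback c v, boxOpen c v U W)).Finite := by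
  letI := sectionsAlgebra c U
  letI := sectionsAlgebra v W
  letI := sectionsAlgebra (prodStr c v) (boxOpen c v U W)
  exact finite_aeval_sumElim (fstAlgHom c v U W) (sndAlgHom c v U W)
    (bijective_productMap c v hU hW) (fun _ => a) t ha ht

theorem injective_aeval_prodCoord {σ : Type} {U : C.Opens} {W : V.Opens} (hU : IsAffineOpen U)
    (hW : IsAffineOpen W) (a : Γ(C, U)) (t : σ → Γ(V, W))
    (ha : letI := sectionsAlgebra c U
      Function.Injective (aeval (fun _ : PUnit.{1} => a) :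
        MvPolynomial PUnit.{1} K →ₐ[K] Γ(C, U)))
    (ht : letI := sectionsAlgebra v W
      Function.Injective (aeval t : MvPolynomial σ K →ₐ[K] Γ(V, W))) :
    letI := sectionsAlgebra (prodStr c v) (boxOpen c v U W)
    Function.Injective (aeval (prodCoord c v U W a t) :
      MvPolynomial (PUnit.{1} ⊕ σ) K →ₐ[K] Γ(pullback c v, boxOpen c v U W)) := by
  letI := sectionsAlgebra c U
  letI := sectionsAlgebra v W
  letI := sectionsAlgebra (prodStr c v) (boxOpen c v U W)
  exact injective_aeval_sumElim (fstAlgHom c v U W) (sndAlgHom c v U W)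
    (bijective_productMap c v hU hW) (fun _ => a) t ha ht

section Curve

variable {ε : NeronModelInfra.SchemeHomOver (𝟙 (Spec (CommRingCat.of K))) c} (cc : CurveCharts c ε)

theorem finite_aeval_t :
    letI := sectionsAlgebra c cc.U0
    (aeval (fun _ : PUnit.{1} => cc.t) : MvPolynomial PUnit.{1} K →ₐ[K] Γ(C, cc.U0)).Finite := by
  letI := sectionsAlgebra c cc.U0
  haveI := cc.finite0
  exact finite_aeval_unit cc.t

theorem injective_aeval_t :
    letI := sectionsAlgebra c cc.U0
    Function.Injective (aeval (fun _ : PUnit.{1} => cc.t) :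
      MvPolynomial PUnit.{1} K →ₐ[K] Γ(C, cc.U0)) := by
  letI := sectionsAlgebra c cc.U0
  haveI := cc.free0
  haveI := cc.dedekind0
  exact injective_aeval_unit cc.t

theorem finite_aeval_s :
    letI := sectionsAlgebra c cc.U1
    (aeval (fun _ : PUnit.{1} => cc.s) : MvPolynomial PUnit.{1} K →ₐ[K] Γ(C, cc.U1)).Finite := by
  letI := sectionsAlgebra c cc.U1
  haveI := cc.finite1
  exact finite_aeval_unit cc.s

theorem injective_aeval_s :
    letI := sectionsAlgebra c cc.U1
    Function.Injective (aeval (fun _ : PUnit.{1} => cc.s) :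
      MvPolynomial PUnit.{1} K →ₐ[K] Γ(C, cc.U1)) := by
  letI := sectionsAlgebra c cc.U1
  haveI := cc.free1
  haveI := cc.dedekind1
  exact injective_aeval_unit cc.s

/-- **The product step.** -/
def BoxSys.prod {σ : Type} (S : BoxSys v σ) : BoxSys (prodStr c v) (PUnit.{1} ⊕ σ) where
  V0 := boxOpen c v cc.U0 S.V0
  aff0 := isAffineOpen_boxOpen c v cc.affine0 S.aff0
  t := prodCoord c v cc.U0 S.V0 cc.t S.t
  fin0 := finite_aeval_prodCoord c v cc.affine0 S.aff0 cc.t S.t (finite_aeval_t c cc) S.fin0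
  inj0 := injective_aeval_prodCoord c v cc.affine0 S.aff0 cc.t S.t (injective_aeval_t c cc) S.inj0
  Vinf := Sum.elim (fun _ => boxOpen c v cc.U1 S.V0) (fun i => boxOpen c v cc.U0 (S.Vinf i))
  affinf := by
    rintro (_ | i)
    · exact isAffineOpen_boxOpen c v cc.affine1 S.aff0
    · exact isAffineOpen_boxOpen c v cc.affine0 (S.affinf i)
  tinf := fun i => match i with
    | Sum.inl _ => prodCoord c v cc.U1 S.V0 cc.s S.t
    | Sum.inr i => prodCoord c v cc.U0 (S.Vinf i) cc.t (S.tinf i)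
  fininf := by
    rintro (_ | i)
    · exact finite_aeval_prodCoord c v cc.affine1 S.aff0 cc.s S.t (finite_aeval_s c cc) S.fin0
    · exact finite_aeval_prodCoord c v cc.affine0 (S.affinf i) cc.t (S.tinf i)
        (finite_aeval_t c cc) (S.fininf i)
  injinf := by
    rintro (_ | i)
    · exact injective_aeval_prodCoord c v cc.affine1 S.aff0 cc.s S.t (injective_aeval_s c cc)
        S.inj0
    · exact injective_aeval_prodCoord c v cc.affine0 (S.affinf i) cc.t (S.tinf i)
        (injective_aeval_t c cc) (S.injinf i)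
  compat_ne := by
    rintro (u | i) (u' | j) hne
    · exact absurd (congrArg Sum.inl (Subsingleton.elim u' u)) hne
    · exact res_appLE_same (pullback.snd c v) inf_le_right inf_le_right (S.t j)
    · exact res_appLE_same (pullback.fst c v) inf_le_left inf_le_left cc.t
    · have hji : j ≠ i := fun h => hne (congrArg Sum.inr h)
      exact res_appLE_of_res_eq (pullback.snd c v) inf_le_right inf_le_right (S.t j)
        (S.tinf i j) (S.compat_ne i j hji)
  compat_eq := by
    rintro (u | i)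
    · exact res_appLE_mul_eq_one (pullback.fst c v) inf_le_left inf_le_left cc.t cc.s cc.ts
    · exact res_appLE_mul_eq_one (pullback.snd c v) inf_le_right inf_le_right (S.t i)
        (S.tinf i i) (S.compat_eq i)

end Curve

end Prod

end Fermat.Agent.AV.Box14
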