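import Fermat.Agent.AV.Box14.Div
import Fermat.Agent.AV.Sand86.VolInst

/-!
# UPB-geo (CELL AV), G3: transfer of the upper bound along a dominant morphism

If `s : V ⟶ A` is a dominant morphism of integral `K`-schemes and `V` carries a box chart system
in `N` coordinates, then `h⁰(A, m D) = O(m ^ N)` for every effective Cartier divisor `D` on `A`, in
the shape consumed by `Sand86.volumeInput_of_divisor'`.  With `Curv33.CurvStatement` this gives the
upper bound on an abelian variety.
-/

set_option autoImplicit false
set_option linter.style.haveILetI false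
set_option linter.unusedSectionVars false

open CategoryTheory CategoryTheory.Limits AlgebraicGeometry TopologicalSpace Opposite
open Fermat.Agent.Jac Fermat.Agent.AV.PicDiv86 NeronModelInfra GoodReductionJacobian

universe u

noncomputable section

namespace Fermat.Agent.AV.Box14

variable {K : Type u} [Field K] {A V : Scheme.{u}} [IsIntegral A] [IsIntegral V]
  {f : A ⟶ Spec (CommRingCat.of K)} {v : V ⟶ Spec (CommRingCat.of K)}

/-- The two descriptions of the structure map `K → Γ(V, U)` agree. -/
theorem sectionsMap_eq_sectionsRingHom (U : V.Opens) (r : K) :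
    Var81.sectionsMap v U r = sectionsRingHom v U r := rfl

theorem structK_eq_algebraMap (r : K) :
    letI := ffAlgebra v
    Sand86.structK v r = algebraMap K V.functionField r := rfl

/-- A dominant morphism over `Spec K` is compatible with the constants. -/
theorem functionFieldMap_structK (s : V ⟶ A) [IsDominant s] (hs : s ≫ f = v) (r : K) :
    PicDiv86.functionFieldMap s (Sand86.structK f r) = Sand86.structK v r := by
  unfold Sand86.structK
  rw [RingHom.comp_apply]
  change PicDiv86.functionFieldMap s (A.germToFunctionField ⊤ _) = _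
  rw [functionFieldMap_germ]
  have h1 : s.app ⊤ (Var81.sectionsMap f ⊤ r) = Var81.sectionsMap v ⊤ r := by
    unfold Var81.sectionsMap
    simp only [RingHom.comp_apply]
    rw [← CommRingCat.comp_apply, Scheme.Hom.app_eq_appLE, Scheme.Hom.appLE_comp_appLE]
    simp only [hs]
    rfl
  rw [h1]
  rfl

/-- **UPB, G3.** Transfer of the upper bound along a dominant `K`-morphism from a scheme with a
box chart system, in the shape consumed by `Sand86.volumeInput_of_divisor'`. -/
theorem exists_upp_of_dominant (s : V ⟶ A) [IsDominant s] (hs : s ≫ f = v) {σ : Type} [Fintype σ]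
    (S : BoxSys v σ) [Algebra K A.functionField]
    (halg : ∀ r : K, algebraMap K A.functionField r = Sand86.structK f r)
    {D : CaDiv A} (hD : D.IsEffective) :
    (∀ m, Module.Finite K
      (CaDiv.H0Submodule K (Sand86.algebraMap_mem_regularOn f halg) (D ^ m))) ∧
    ∃ (C : ℝ) (m₀ : ℕ), ∀ m : ℕ, m₀ ≤ m →
      ((Module.finrank K
        (CaDiv.H0Submodule K (Sand86.algebraMap_mem_regularOn f halg) (D ^ m)) : ℕ) : ℝ) ≤
        C * (m : ℝ) ^ Fintype.card σ := by
  letI := ffAlgebra v
  have hRX := Sand86.algebraMap_mem_regularOn f halg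
  have hRY : ∀ r : K, algebraMap K V.functionField r ∈ regularOn V Set.univ :=
    fun r => Sand86.structK_mem_regularOn v r
  have hφ : ∀ r : K, PicDiv86.functionFieldMap s (algebraMap K A.functionField r) =
      algebraMap K V.functionField r := by
    intro r
    rw [halg, functionFieldMap_structK s hs]
    rfl
  obtain ⟨C, hC⟩ := S.exists_finrank_H0_le (hD.pullback (φ := s))
  -- the bound and finiteness for `m ≥ 1`
  have key : ∀ m : ℕ, 1 ≤ m →
      Module.Finite K (CaDiv.H0Submodule K hRX (D ^ m)) ∧
        Module.finrank K (CaDiv.H0Submodule K hRX (D ^ m)) ≤ C * m ^ Fintype.card σ := by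
    intro m hm
    have e : CaDiv.pullback s (D ^ m) = (CaDiv.pullback s D) ^ m := map_pow _ _ _
    obtain ⟨h1, h2⟩ := hC m (CaDiv.H0Submodule K hRY (CaDiv.pullback s (D ^ m))) hm
      (fun g hg => by rw [← e]; exact hg)
    have hinj := CaDiv.H0Pullback_injective K s hRX hRY hφ (D ^ m)
    exact ⟨Module.Finite.of_injective _ hinj,
      (LinearMap.finrank_le_finrank_of_injective hinj).trans h2⟩
  refine ⟨fun m => ?_, (C : ℝ), 1, fun m hm => ?_⟩
  · rcases Nat.eq_zero_or_pos m with rfl | hm
    · haveI := (key 1 le_rfl).1
      have hle : CaDiv.H0Submodule K hRX (D ^ 0) ≤ CaDiv.H0Submodule K hRX (D ^ 1) :=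
        fun g hg => CaDiv.H0_pow_mono hD (Nat.zero_le 1) hg
      exact Module.Finite.of_injective (Submodule.inclusion hle) (Submodule.inclusion_injective hle)
    · exact (key m hm).1
  · exact_mod_cast (key m hm).2

section Curv

open Fermat.Agent.AV.Curv33

variable {K : Type u} [Field K] [IsAlgClosed K] {A : Scheme.{u}} [IsIntegral A]
  {f : A ⟶ Spec (CommRingCat.of K)}

/-- **UPB on a group scheme dominated by a product of `g` curves** (the output of brick CURV): for
every effective Cartier divisor `D`, the spaces `H⁰(m D)` are finite dimensional of dimension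
`O(m ^ g)`; exactly the hypotheses `hfin`, `hupp` of `Sand86.volumeInput_of_divisor'`. -/
theorem exists_upp_of_curvStatement (G : RelativeGroupLaw K f) (g : ℕ)
    (hcurv : CurvStatement G g) [Algebra K A.functionField]
    (halg : ∀ r : K, algebraMap K A.functionField r = Sand86.structK f r)
    {D : CaDiv A} (hD : D.IsEffective) :
    (∀ m, Module.Finite K
      (CaDiv.H0Submodule K (Sand86.algebraMap_mem_regularOn f halg) (D ^ m))) ∧
    ∃ (C : ℝ) (m₀ : ℕ), ∀ m : ℕ, m₀ ≤ m →
      ((Module.finrank K
        (CaDiv.H0Submodule K (Sand86.algebraMap_mem_regularOn f halg) (D ^ m)) : ℕ) : ℝ) ≤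
        C * (m : ℝ) ^ g := by
  obtain ⟨l, hl, hdom⟩ := hcurv
  haveI := isIntegral_prodObj l
  obtain ⟨σ, hσ, hcard, ⟨S⟩⟩ := exists_boxSys l
  have := exists_upp_of_dominant (sumMap G l) (sumMap_f G l) S halg hD
  rwa [hcard, hl] at this

end Curv

end Fermat.Agent.AV.Box14
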